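import Mathlib

/-!
# S16 / L-lat: an explicit even positive definite quaternary lattice of level `p`, determinant `p²`

For integers `p, s, r, t` with `r ^ 2 + p = (4 * s - 1) * t` the symmetric matrices

```
A = [2, 1, 0, 0; 1, 2s, 0, r; 0, 0, 2ps, p; 0, r, p, 2t]
B = [2st, p-4st, -r, 2sr; p-4st, 2(4st-p), 2r, -4sr; -r, 2r, 2, 1-4s; 2sr, -4sr, 1-4s, 2s(4s-1)]
```

have even diagonal and satisfy `A * B = B * A = p • 1`, `det A = p ^ 2`; `A` is positive definite
as soon as `0 < p`, `0 < s`.  For every prime `p` such parameters exist (`p = 2`: `(1,1,1)`;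
`p ≡ 3 mod 4`: `((p+1)/4, 0, 1)`; `p ≡ 1 mod 4`: Dirichlet + quadratic reciprocity).
-/

set_option autoImplicit false

namespace Fermat.Agent.S16.H2

open Matrix

/-- The Gram matrix `A`. -/
def gramA (p s r t : ℤ) : Matrix (Fin 4) (Fin 4) ℤ :=
  !![2, 1, 0, 0; 1, 2 * s, 0, r; 0, 0, 2 * p * s, p; 0, r, p, 2 * t]

/-- The matrix `B = p • A⁻¹`. -/
def gramB (p s r t : ℤ) : Matrix (Fin 4) (Fin 4) ℤ :=
  !![2 * s * t, p - 4 * s * t, -r, 2 * s * r;
     p - 4 * s * t, 2 * (4 * s * t - p), 2 * r, -(4 * s * r);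
     -r, 2 * r, 2, 1 - 4 * s;
     2 * s * r, -(4 * s * r), 1 - 4 * s, 2 * s * (4 * s - 1)]

theorem gramA_isSymm (p s r t : ℤ) : (gramA p s r t).IsSymm := by
  ext i j
  fin_cases i <;> fin_cases j <;> simp [gramA]

theorem gramB_isSymm (p s r t : ℤ) : (gramB p s r t).IsSymm := by
  ext i j
  fin_cases i <;> fin_cases j <;> simp [gramB]

theorem gramA_even_diag (p s r t : ℤ) (i : Fin 4) : Even (gramA p s r t i i) := by
  fin_cases i
  · exact ⟨1, by simp [gramA]⟩
  · exact ⟨s, by simp [gramA]; ring⟩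
  · exact ⟨p * s, by simp [gramA]; ring⟩
  · exact ⟨t, by simp [gramA]; ring⟩

theorem gramB_even_diag (p s r t : ℤ) (i : Fin 4) : Even (gramB p s r t i i) := by
  fin_cases i
  · exact ⟨s * t, by simp [gramB]; ring⟩
  · exact ⟨4 * s * t - p, by simp [gramB]; ring⟩
  · exact ⟨1, by simp [gramB]⟩
  · exact ⟨s * (4 * s - 1), by simp [gramB]; ring⟩

theorem gramA_mul_gramB {p s r t : ℤ} (h : r ^ 2 + p = (4 * s - 1) * t) :
    gramA p s r t * gramB p s r t = p • (1 : Matrix (Fin 4) (Fin 4) ℤ) := by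
  ext i j
  fin_cases i <;> fin_cases j <;>
    simp [gramA, gramB, Matrix.mul_apply, Fin.sum_univ_four] <;>
    first
      | ring1
      | linear_combination (2 * s) * h
      | linear_combination (-(4 * s)) * h
      | linear_combination (2 : ℤ) * h

theorem gramB_mul_gramA {p s r t : ℤ} (h : r ^ 2 + p = (4 * s - 1) * t) :
    gramB p s r t * gramA p s r t = p • (1 : Matrix (Fin 4) (Fin 4) ℤ) := by
  have h1 := gramA_mul_gramB h
  have h2 := congrArg Matrix.transpose h1
  rw [Matrix.transpose_mul, (gramA_isSymm p s r t).eq, (gramB_isSymm p s r t).eq] at h2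
  rw [h2]
  simp

theorem gramA_det {p s r t : ℤ} (h : r ^ 2 + p = (4 * s - 1) * t) :
    (gramA p s r t).det = p ^ 2 := by
  simp [gramA, Matrix.det_succ_row_zero, Fin.sum_univ_succ, Fin.succAbove, Matrix.submatrix]
  linear_combination (-(4 * p * s)) * h

theorem gramA_quadForm (p s r t : ℤ) (x : Fin 4 → ℝ) :
    star x ⬝ᵥ ((gramA p s r t).map (Int.cast : ℤ → ℝ) *ᵥ x) =
      2 * x 0 ^ 2 + 2 * x 0 * x 1 + 2 * s * x 1 ^ 2 + 2 * r * x 1 * x 3
        + 2 * p * s * x 2 ^ 2 + 2 * p * x 2 * x 3 + 2 * t * x 3 ^ 2 := by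
  simp [dotProduct, Matrix.mulVec, Fin.sum_univ_four, gramA]
  ring

theorem gramA_posDef {p s r t : ℤ} (h : r ^ 2 + p = (4 * s - 1) * t) (hp : 0 < p) (hs : 0 < s) :
    ((gramA p s r t).map (Int.cast : ℤ → ℝ)).PosDef := by
  rw [Matrix.posDef_iff_dotProduct_mulVec]
  refine ⟨?_, fun x hx => ?_⟩
  · ext i j
    fin_cases i <;> fin_cases j <;> simp [gramA, Matrix.conjTranspose_apply]
  · rw [gramA_quadForm]
    have hR : (r : ℝ) ^ 2 + p = (4 * s - 1) * t := by exact_mod_cast h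
    have hP : (0 : ℝ) < p := by exact_mod_cast hp
    have hS : (1 : ℝ) ≤ s := by exact_mod_cast hs
    have hq : (0 : ℝ) < 4 * s - 1 := by linarith
    set a := x 0
    set b := x 1
    set c := x 2
    set d := x 3
    have key : (4 * (s : ℝ) - 1) * (2 * a ^ 2 + 2 * a * b + 2 * s * b ^ 2 + 2 * r * b * d
        + 2 * p * s * c ^ 2 + 2 * p * c * d + 2 * t * d ^ 2)
        = 2 * (4 * s - 1) * (a + b / 2) ^ 2 + (1 / 2) * ((4 * s - 1) * b + 2 * r * d) ^ 2
          + (p * (4 * s - 1) / 2) * c ^ 2 + (p / 2) * ((4 * s - 1) * c + 2 * d) ^ 2 := by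
      linear_combination (-(2 * d ^ 2)) * hR
    by_contra hneg'
    have hneg := not_lt.mp hneg'
    have h1 : 0 ≤ 2 * (4 * (s : ℝ) - 1) * (a + b / 2) ^ 2 := by positivity
    have h2 : 0 ≤ (1 / 2 : ℝ) * ((4 * s - 1) * b + 2 * r * d) ^ 2 := by positivity
    have h3 : 0 ≤ ((p : ℝ) * (4 * s - 1) / 2) * c ^ 2 := by positivity
    have h4 : 0 ≤ ((p : ℝ) / 2) * ((4 * s - 1) * c + 2 * d) ^ 2 := by positivity
    have hle : (4 * (s : ℝ) - 1) * (2 * a ^ 2 + 2 * a * b + 2 * s * b ^ 2 + 2 * r * b * d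
        + 2 * p * s * c ^ 2 + 2 * p * c * d + 2 * t * d ^ 2) ≤ 0 :=
      mul_nonpos_of_nonneg_of_nonpos hq.le hneg
    rw [key] at hle
    have e3 : ((p : ℝ) * (4 * s - 1) / 2) * c ^ 2 = 0 := by linarith
    have e4 : ((p : ℝ) / 2) * ((4 * s - 1) * c + 2 * d) ^ 2 = 0 := by linarith
    have e2 : (1 / 2 : ℝ) * ((4 * s - 1) * b + 2 * r * d) ^ 2 = 0 := by linarith
    have e1 : 2 * (4 * (s : ℝ) - 1) * (a + b / 2) ^ 2 = 0 := by linarith
    have hc : c = 0 := by
      have : c ^ 2 = 0 := by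
        rcases mul_eq_zero.mp e3 with h' | h'
        · exfalso; have : (0:ℝ) < p * (4 * s - 1) / 2 := by positivity
          linarith
        · exact h'
      exact pow_eq_zero_iff (two_ne_zero) |>.mp this
    have hd : d = 0 := by
      have : ((4 * (s:ℝ) - 1) * c + 2 * d) ^ 2 = 0 := by
        rcases mul_eq_zero.mp e4 with h' | h'
        · exfalso; linarith
        · exact h'
      have h5 := pow_eq_zero_iff (two_ne_zero) |>.mp this
      rw [hc] at h5
      linarith
    have hb : b = 0 := by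
      have : ((4 * (s:ℝ) - 1) * b + 2 * r * d) ^ 2 = 0 := by
        rcases mul_eq_zero.mp e2 with h' | h'
        · exfalso; linarith
        · exact h'
      have h5 := pow_eq_zero_iff (two_ne_zero) |>.mp this
      rw [hd] at h5
      have h6 : (4 * (s:ℝ) - 1) * b = 0 := by linarith
      rcases mul_eq_zero.mp h6 with h' | h'
      · exfalso; linarith
      · exact h'
    have ha : a = 0 := by
      have : (a + b / 2) ^ 2 = 0 := by
        rcases mul_eq_zero.mp e1 with h' | h'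
        · exfalso; linarith
        · exact h'
      have h5 := pow_eq_zero_iff (two_ne_zero) |>.mp this
      rw [hb] at h5
      linarith
    apply hx
    ext i
    fin_cases i
    · exact ha
    · exact hb
    · exact hc
    · exact hd

/-- For `p ≡ 1 mod 4` prime there is a prime `q ≡ 3 mod 4` such that `-p` is a square mod `q`
(Dirichlet's theorem + quadratic reciprocity). -/
theorem exists_prime_three_mod_four_neg_isSquare {p : ℕ} (hp : p.Prime) (hp1 : p % 4 = 1) :
    ∃ q : ℕ, q.Prime ∧ q % 4 = 3 ∧ ∃ r : ℤ, (q : ℤ) ∣ r ^ 2 + p := by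
  have : Fact p.Prime := ⟨hp⟩
  have hp2 : p ≠ 2 := by rintro rfl; omega
  obtain ⟨n, hn⟩ : ∃ n : ZMod p, ¬IsSquare n :=
    FiniteField.exists_nonsquare (by rw [ZMod.ringChar_zmod_n]; exact hp2)
  have hcop : Nat.Coprime 4 p := by
    have : Nat.Coprime 2 p := (Nat.coprime_primes Nat.prime_two hp).mpr (Ne.symm hp2)
    exact Nat.Coprime.pow_left 2 this
  obtain ⟨a, ha4, hap⟩ := Nat.chineseRemainder hcop 3 n.val
  -- `a` is coprime to `4 * p`
  have hn0 : n ≠ 0 := by rintro rfl; exact hn ⟨0, by simp⟩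
  have hap' : ((a : ℕ) : ZMod p) = n := by
    have := (ZMod.natCast_eq_natCast_iff a n.val p).mpr hap
    rw [this, ZMod.natCast_zmod_val]
  have ha_p : Nat.Coprime a p := by
    rw [Nat.coprime_comm, Nat.Prime.coprime_iff_not_dvd hp]
    intro hdvd
    apply hn0
    rw [← hap']
    exact (ZMod.natCast_eq_zero_iff a p).mpr hdvd
  have ha_4 : Nat.Coprime a 4 := by
    have h2 : Nat.Coprime a 2 := by
      rw [Nat.coprime_comm, Nat.Prime.coprime_iff_not_dvd Nat.prime_two]
      intro hdvd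
      have := ha4
      unfold Nat.ModEq at this
      omega
    exact Nat.Coprime.pow_right 2 h2
  have ha_4p : Nat.Coprime a (4 * p) := Nat.Coprime.mul_right ha_4 ha_p
  obtain ⟨q, hq2, hq, hqa⟩ :=
    Nat.forall_exists_prime_gt_and_modEq 2 (q := 4 * p) (a := a) (by have := hp.pos; omega) ha_4p
  have : Fact q.Prime := ⟨hq⟩
  have hq4 : q % 4 = 3 := by
    have h1 : q ≡ a [MOD 4] := hqa.of_mul_right p
    have h2 : q ≡ 3 [MOD 4] := h1.trans ha4
    unfold Nat.ModEq at h2
    omega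
  have hqp : ((q : ℕ) : ZMod p) = n := by
    have h1 : q ≡ a [MOD p] := hqa.of_mul_left 4
    rw [(ZMod.natCast_eq_natCast_iff q a p).mpr h1, hap']
  have hqne2 : q ≠ 2 := by omega
  have hpq : p ≠ q := by rintro rfl; omega
  -- quadratic reciprocity
  have hpns : ¬IsSquare ((p : ℕ) : ZMod q) := by
    rw [← ZMod.exists_sq_eq_prime_iff_of_mod_four_eq_one hp1 hqne2, hqp]
    exact hn
  have hm1 : ¬IsSquare (-1 : ZMod q) := by
    rw [ZMod.exists_sq_eq_neg_one_iff]
    omega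
  have hl1 : legendreSym q (-1) = -1 := by
    rw [legendreSym.eq_neg_one_iff]
    simpa using hm1
  have hl2 : legendreSym q (p : ℤ) = -1 := by
    rw [legendreSym.eq_neg_one_iff]
    simpa using hpns
  have hl3 : legendreSym q (-1 * (p : ℤ)) = 1 := by
    rw [legendreSym.mul, hl1, hl2]
    norm_num
  have hne0 : (((-1 * (p : ℤ) : ℤ)) : ZMod q) ≠ 0 := by
    intro h0
    rw [(legendreSym.eq_zero_iff q _).mpr h0] at hl3
    exact zero_ne_one hl3
  obtain ⟨r0, hr0⟩ := (legendreSym.eq_one_iff q hne0).mp hl3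
  refine ⟨q, hq, hq4, (r0.val : ℤ), ?_⟩
  rw [← ZMod.intCast_zmod_eq_zero_iff_dvd]
  push_cast
  rw [ZMod.natCast_zmod_val]
  have : (-1 * (p : ZMod q)) = r0 * r0 := by
    have := hr0
    push_cast at this
    exact this
  linear_combination -this

/-- Existence of admissible parameters for every prime `p`. -/
theorem exists_params {p : ℕ} (hp : p.Prime) :
    ∃ s r t : ℤ, 0 < s ∧ r ^ 2 + (p : ℤ) = (4 * s - 1) * t := by
  rcases hp.eq_two_or_odd with rfl | hodd
  · exact ⟨1, 1, 1, by norm_num, by norm_num⟩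
  · have h4 : p % 4 = 1 ∨ p % 4 = 3 := by omega
    rcases h4 with h1 | h3
    · obtain ⟨q, -, hq4, r, t, ht⟩ := exists_prime_three_mod_four_neg_isSquare hp h1
      refine ⟨((q / 4 : ℕ) : ℤ) + 1, r, t, by positivity, ?_⟩
      rw [ht]
      have : (q : ℤ) = 4 * ((q / 4 : ℕ) : ℤ) + 3 := by omega
      rw [this]
      ring
    · refine ⟨((p / 4 : ℕ) : ℤ) + 1, 0, 1, by positivity, ?_⟩
      have : (p : ℤ) = 4 * ((p / 4 : ℕ) : ℤ) + 3 := by omega
      rw [this]
      push_cast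
      ring

/-- **L-lat.**  For every prime `p` there is an even, symmetric, positive definite integral
`4 × 4` matrix `A` of determinant `p ^ 2` together with an even symmetric integral `B` such that
`A * B = B * A = p`. -/
theorem exists_gram {p : ℕ} (hp : p.Prime) :
    ∃ A B : Matrix (Fin 4) (Fin 4) ℤ,
      A.IsSymm ∧ B.IsSymm ∧ (∀ i, Even (A i i)) ∧ (∀ i, Even (B i i)) ∧
      A * B = (p : ℤ) • (1 : Matrix (Fin 4) (Fin 4) ℤ) ∧
      B * A = (p : ℤ) • (1 : Matrix (Fin 4) (Fin 4) ℤ) ∧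
      A.det = (p : ℤ) ^ 2 ∧ (A.map (Int.cast : ℤ → ℝ)).PosDef := by
  obtain ⟨s, r, t, hs, h⟩ := exists_params hp
  exact ⟨gramA p s r t, gramB p s r t, gramA_isSymm _ _ _ _, gramB_isSymm _ _ _ _,
    gramA_even_diag _ _ _ _, gramB_even_diag _ _ _ _, gramA_mul_gramB h, gramB_mul_gramA h,
    gramA_det h, gramA_posDef h (by exact_mod_cast hp.pos) hs⟩

end Fermat.Agent.S16.H2
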